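import Mathlib

/-!
# Group lemma for the Igusa row (S28), piece (Grp)

If a subgroup `D ≤ SL(2, ℤ)` contains `T` and is not contained in `Γ₀(p)` for any prime `p ∣ N`,
then `D · Γ₀(N) = SL(2, ℤ)`, i.e. `D` acts transitively on `SL(2, ℤ) ⧸ Γ₀(N)`.
-/

namespace Fermat.Agent.S28.H325

open Matrix Matrix.SpecialLinearGroup CongruenceSubgroup ModularGroup
open scoped MatrixGroups

/-- Avoiding finitely many primes along an arithmetic progression. -/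
theorem exists_forall_not_dvd_add_mul (P : Finset ℕ) (A B : ℤ)
    (hP : ∀ r ∈ P, r.Prime ∧ ((r : ℤ) ∣ A → ¬ (r : ℤ) ∣ B)) :
    ∃ k : ℤ, ∀ r ∈ P, ¬ (r : ℤ) ∣ A + k * B := by
  classical
  set Q : Finset ℕ := P.filter (fun r => ¬ (r : ℤ) ∣ A) with hQ
  set K : ℕ := ∏ r ∈ Q, r with hK
  refine ⟨(K : ℤ), fun r hr hdvd => ?_⟩
  obtain ⟨hrp, hAB⟩ := hP r hr
  have hrp' : Prime (r : ℤ) := Nat.prime_iff_prime_int.mp hrp
  by_cases hA : (r : ℤ) ∣ A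
  · have h1 : (r : ℤ) ∣ (K : ℤ) * B := (dvd_add_right hA).mp hdvd
    rcases hrp'.dvd_or_dvd h1 with h2 | h2
    · have h3 : r ∣ K := by exact_mod_cast h2
      obtain ⟨s, hs, hrs⟩ := (hrp.prime.dvd_finsetProd_iff _).mp h3
      rw [hQ, Finset.mem_filter] at hs
      have hsp : s.Prime := (hP s hs.1).1
      have : r = s := (Nat.prime_dvd_prime_iff_eq hrp hsp).mp hrs
      subst this
      exact hs.2 hA
    · exact hAB hA h2
  · have hmem : r ∈ Q := Finset.mem_filter.mpr ⟨hr, hA⟩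
    have h1 : (r : ℤ) ∣ (K : ℤ) := by
      exact_mod_cast Finset.dvd_prod_of_mem (fun r => r) hmem
    exact hA ((dvd_add_left (h1.mul_right B)).mp hdvd)

theorem sl2_det_eq (g : SL(2, ℤ)) : g 0 0 * g 1 1 - g 0 1 * g 1 0 = 1 := by
  have h := g.det_coe
  rw [Matrix.det_fin_two] at h
  exact h

theorem sl2_mul_apply_one_zero (g h : SL(2, ℤ)) :
    (g * h) 1 0 = g 1 0 * h 0 0 + g 1 1 * h 1 0 := by
  simp [Matrix.SpecialLinearGroup.coe_mul, Matrix.mul_apply, Fin.sum_univ_two]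

theorem sl2_mul_apply_zero_zero (g h : SL(2, ℤ)) :
    (g * h) 0 0 = g 0 0 * h 0 0 + g 0 1 * h 1 0 := by
  simp [Matrix.SpecialLinearGroup.coe_mul, Matrix.mul_apply, Fin.sum_univ_two]

theorem sl2_inv_apply_one_zero (g : SL(2, ℤ)) : (g⁻¹) 1 0 = - g 1 0 := by
  simp [Matrix.SpecialLinearGroup.coe_inv, Matrix.adjugate_fin_two]

theorem sl2_inv_apply_one_one (g : SL(2, ℤ)) : (g⁻¹) 1 1 = g 0 0 := by
  simp [Matrix.SpecialLinearGroup.coe_inv, Matrix.adjugate_fin_two]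

theorem T_zpow_mul_apply_zero_zero (k : ℤ) (g : SL(2, ℤ)) :
    (T ^ k * g) 0 0 = g 0 0 + k * g 1 0 := by
  rw [sl2_mul_apply_zero_zero]
  have h := coe_T_zpow k
  have h00 : (T ^ k) 0 0 = 1 := by
    have := congrFun (congrFun h 0) 0; simpa using this
  have h01 : (T ^ k) 0 1 = k := by
    have := congrFun (congrFun h 0) 1; simpa using this
  rw [h00, h01]; ring

theorem T_zpow_mul_apply_one_zero (k : ℤ) (g : SL(2, ℤ)) :
    (T ^ k * g) 1 0 = g 1 0 := by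
  rw [sl2_mul_apply_one_zero]
  have h := coe_T_zpow k
  have h10 : (T ^ k) 1 0 = 0 := by
    have := congrFun (congrFun h 1) 0; simpa using this
  have h11 : (T ^ k) 1 1 = 1 := by
    have := congrFun (congrFun h 1) 1; simpa using this
  rw [h10, h11]; ring

theorem mem_Gamma0_iff_dvd (N : ℕ) (g : SL(2, ℤ)) : g ∈ Gamma0 N ↔ (N : ℤ) ∣ g 1 0 := by
  rw [Gamma0_mem, ZMod.intCast_zmod_eq_zero_iff_dvd]

/-- The set of primes dividing `N` and the lower-left entry of `g`. -/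
noncomputable def badPrimes (N : ℕ) (g : SL(2, ℤ)) : Finset ℕ :=
  N.primeFactors.filter (fun r => (r : ℤ) ∣ g 1 0)

theorem mem_badPrimes {N : ℕ} {g : SL(2, ℤ)} {r : ℕ} :
    r ∈ badPrimes N g ↔ r ∈ N.primeFactors ∧ (r : ℤ) ∣ g 1 0 := by
  simp [badPrimes]

/-- One reduction step: remove a bad prime without creating new ones. -/
theorem exists_badPrimes_ssubset (N : ℕ) (D : Subgroup SL(2, ℤ)) (hT : T ∈ D)
    (hD : ∀ p : ℕ, p.Prime → p ∣ N → ∃ d ∈ D, d ∉ Gamma0 p)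
    (g : SL(2, ℤ)) (p : ℕ) (hp : p ∈ badPrimes N g) :
    ∃ d ∈ D, badPrimes N (d * g) ⊂ badPrimes N g := by
  classical
  obtain ⟨hpN, hpg⟩ := mem_badPrimes.mp hp
  have hpp : p.Prime := Nat.prime_of_mem_primeFactors hpN
  have hpp' : Prime (p : ℤ) := Nat.prime_iff_prime_int.mp hpp
  obtain ⟨h, hhD, hh⟩ := hD p hpp (Nat.dvd_of_mem_primeFactors hpN)
  rw [mem_Gamma0_iff_dvd] at hh
  set A : ℤ := h 1 0 * g 0 0 + h 1 1 * g 1 0 with hA
  set B : ℤ := h 1 0 * g 1 0 with hB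
  obtain ⟨k, hk⟩ := exists_forall_not_dvd_add_mul
    (N.primeFactors.filter (fun r => ¬ (r : ℤ) ∣ g 1 0)) A B (by
      intro r hr
      rw [Finset.mem_filter] at hr
      have hrp : r.Prime := Nat.prime_of_mem_primeFactors hr.1
      have hrp' : Prime (r : ℤ) := Nat.prime_iff_prime_int.mp hrp
      refine ⟨hrp, fun h1 h2 => ?_⟩
      have h3 : (r : ℤ) ∣ h 1 0 := (hrp'.dvd_or_dvd h2).resolve_right hr.2
      have h4 : (r : ℤ) ∣ h 1 1 * g 1 0 := (dvd_add_right (h3.mul_right _)).mp h1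
      have h5 : (r : ℤ) ∣ h 1 1 := (hrp'.dvd_or_dvd h4).resolve_right hr.2
      have h6 : (r : ℤ) ∣ 1 := by
        rw [← sl2_det_eq h]
        exact dvd_sub (h5.mul_left _) (h3.mul_left _)
      exact hrp'.not_dvd_one h6)
  have hentry : (h * T ^ k * g) 1 0 = A + k * B := by
    rw [mul_assoc, sl2_mul_apply_one_zero, T_zpow_mul_apply_zero_zero,
      T_zpow_mul_apply_one_zero, hA, hB]
    ring
  refine ⟨h * T ^ k, D.mul_mem hhD (D.zpow_mem hT k), ?_⟩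
  rw [Finset.ssubset_iff_of_subset]
  · refine ⟨p, hp, fun hmem => ?_⟩
    have h1 := (mem_badPrimes.mp hmem).2
    rw [hentry] at h1
    have h2 : (p : ℤ) ∣ h 1 0 * g 0 0 := by
      have e : A + k * B = h 1 0 * g 0 0 + (h 1 1 + k * h 1 0) * g 1 0 := by
        rw [hA, hB]; ring
      rw [e] at h1
      exact (dvd_add_left (hpg.mul_left _)).mp h1
    have h3 : (p : ℤ) ∣ g 0 0 := (hpp'.dvd_or_dvd h2).resolve_left hh
    have h4 : (p : ℤ) ∣ 1 := by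
      rw [← sl2_det_eq g]
      exact dvd_sub (h3.mul_right _) (hpg.mul_left _)
    exact hpp'.not_dvd_one h4
  · intro r hr
    obtain ⟨hrN, hrg⟩ := mem_badPrimes.mp hr
    rw [hentry] at hrg
    by_contra hcon
    have hr' : ¬ (r : ℤ) ∣ g 1 0 := fun h1 => hcon (mem_badPrimes.mpr ⟨hrN, h1⟩)
    exact hk r (Finset.mem_filter.mpr ⟨hrN, hr'⟩) hrg

/-- Every element can be moved by `D` to one whose lower-left entry is prime to `N`. -/
theorem exists_badPrimes_eq_empty (N : ℕ) (D : Subgroup SL(2, ℤ)) (hT : T ∈ D)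
    (hD : ∀ p : ℕ, p.Prime → p ∣ N → ∃ d ∈ D, d ∉ Gamma0 p) :
    ∀ (n : ℕ) (g : SL(2, ℤ)), (badPrimes N g).card = n → ∃ d ∈ D, badPrimes N (d * g) = ∅ := by
  intro n
  induction n using Nat.strong_induction_on with
  | _ n ih =>
    intro g hg
    rcases Finset.eq_empty_or_nonempty (badPrimes N g) with he | ⟨p, hp⟩
    · exact ⟨1, D.one_mem, by rwa [one_mul]⟩
    · obtain ⟨d, hdD, hd⟩ := exists_badPrimes_ssubset N D hT hD g p hp
      have hlt : (badPrimes N (d * g)).card < n := hg ▸ Finset.card_lt_card hd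
      obtain ⟨d', hd'D, hd'⟩ := ih _ hlt (d * g) rfl
      exact ⟨d' * d, D.mul_mem hd'D hdD, by rwa [mul_assoc]⟩

theorem isCoprime_of_badPrimes_eq_empty {N : ℕ} (hN : N ≠ 0) {g : SL(2, ℤ)}
    (h : badPrimes N g = ∅) : IsCoprime (g 1 0) (N : ℤ) := by
  rw [Int.isCoprime_iff_gcd_eq_one]
  by_contra hne
  obtain ⟨p, hp, hpd⟩ := Nat.exists_prime_and_dvd hne
  have h1 : (p : ℤ) ∣ g 1 0 :=
    (Int.natCast_dvd_natCast.mpr hpd).trans (Int.gcd_dvd_left _ _)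
  have h2 : (p : ℤ) ∣ (N : ℤ) :=
    (Int.natCast_dvd_natCast.mpr hpd).trans (Int.gcd_dvd_right _ _)
  have h3 : p ∈ badPrimes N g :=
    mem_badPrimes.mpr ⟨Nat.mem_primeFactors.mpr ⟨hp, by exact_mod_cast h2, hN⟩, h1⟩
  rw [h] at h3
  exact absurd h3 (Finset.notMem_empty _)

/-- Every element can be moved by `D` to one whose upper-left entry is divisible by `N`. -/
theorem exists_dvd_apply_zero_zero (N : ℕ) [NeZero N] (D : Subgroup SL(2, ℤ)) (hT : T ∈ D)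
    (hD : ∀ p : ℕ, p.Prime → p ∣ N → ∃ d ∈ D, d ∉ Gamma0 p) (g : SL(2, ℤ)) :
    ∃ d ∈ D, (N : ℤ) ∣ (d * g) 0 0 := by
  obtain ⟨d, hdD, hd⟩ := exists_badPrimes_eq_empty N D hT hD _ g rfl
  obtain ⟨u, v, huv⟩ := isCoprime_of_badPrimes_eq_empty (NeZero.ne N) hd
  refine ⟨T ^ (-(d * g) 0 0 * u) * d, D.mul_mem (D.zpow_mem hT _) hdD, ?_⟩
  rw [mul_assoc, T_zpow_mul_apply_zero_zero]
  refine ⟨(d * g) 0 0 * v, ?_⟩
  linear_combination (-((d * g) 0 0)) * huv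

/-- **Group lemma.** If `T ∈ D` and `D ⊄ Γ₀(p)` for every prime `p ∣ N`, then
`SL(2, ℤ) = D · Γ₀(N)`. -/
theorem exists_mul_mem_Gamma0 (N : ℕ) [NeZero N] (D : Subgroup SL(2, ℤ)) (hT : T ∈ D)
    (hD : ∀ p : ℕ, p.Prime → p ∣ N → ∃ d ∈ D, d ∉ Gamma0 p) (g : SL(2, ℤ)) :
    ∃ d ∈ D, ∃ γ ∈ Gamma0 N, g = d * γ := by
  obtain ⟨d₁, hd₁D, hd₁⟩ := exists_dvd_apply_zero_zero N D hT hD g
  obtain ⟨d₀, hd₀D, hd₀⟩ := exists_dvd_apply_zero_zero N D hT hD 1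
  rw [mul_one] at hd₀
  refine ⟨d₁⁻¹ * d₀, D.mul_mem (D.inv_mem hd₁D) hd₀D, d₀⁻¹ * (d₁ * g), ?_, by group⟩
  rw [mem_Gamma0_iff_dvd, sl2_mul_apply_one_zero, sl2_inv_apply_one_zero, sl2_inv_apply_one_one]
  exact dvd_add (hd₁.mul_left _) ((hd₀.mul_right _))

/-- Right-coset version of the group lemma: `SL(2, ℤ) = Γ₀(N) · D`. -/
theorem exists_mem_Gamma0_mul (N : ℕ) [NeZero N] (D : Subgroup SL(2, ℤ)) (hT : T ∈ D)
    (hD : ∀ p : ℕ, p.Prime → p ∣ N → ∃ d ∈ D, d ∉ Gamma0 p) (g : SL(2, ℤ)) :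
    ∃ γ ∈ Gamma0 N, ∃ d ∈ D, g = γ * d := by
  obtain ⟨d, hd, γ, hγ, h⟩ := exists_mul_mem_Gamma0 N D hT hD g⁻¹
  exact ⟨γ⁻¹, inv_mem hγ, d⁻¹, inv_mem hd, by rw [← _root_.mul_inv_rev, ← h, inv_inv]⟩

/-- Transitivity form: `D` acts transitively on the left cosets `SL(2, ℤ) ⧸ Γ₀(N)`. -/
theorem exists_smul_eq_quotient (N : ℕ) [NeZero N] (D : Subgroup SL(2, ℤ)) (hT : T ∈ D)
    (hD : ∀ p : ℕ, p.Prime → p ∣ N → ∃ d ∈ D, d ∉ Gamma0 p)
    (x y : SL(2, ℤ) ⧸ Gamma0 N) : ∃ d ∈ D, d • x = y := by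
  induction x using QuotientGroup.induction_on with
  | H g =>
    induction y using QuotientGroup.induction_on with
    | H g' =>
      obtain ⟨d, hd, γ, hγ, h⟩ := exists_mul_mem_Gamma0 N D hT hD g
      obtain ⟨d', hd', γ', hγ', h'⟩ := exists_mul_mem_Gamma0 N D hT hD g'
      refine ⟨d' * d⁻¹, D.mul_mem hd' (D.inv_mem hd), ?_⟩
      rw [MulAction.Quotient.smul_mk, QuotientGroup.eq]
      have e : (d' * d⁻¹ * g)⁻¹ * g' = γ⁻¹ * γ' := by
        rw [h, h']; group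
      rw [smul_eq_mul, e]
      exact (Gamma0 N).mul_mem ((Gamma0 N).inv_mem hγ) hγ'

end Fermat.Agent.S28.H325
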